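import Fermat.Agent.S37.H628.E2Degree
import Fermat.Agent.S37.H508.RimCharts
import Fermat.Agent.Lib.RR.H383.Fundamental
import Fermat.Agent.S18.H739.ModFinite

/-!
# S37 / node_rim, field `FI` of helper508's `TwoCharts` assembly (helper628)

Exact statement of the field `FI` of `origin/helper508:Fermat/Agent/S37/H508/RimSkel.lean`:

    theorem FI (D₁ : Divisor ℚ̄ F) (E₁ : Divisor k F_k)
        (hD : ∀ P, D₁ P = P.ord (ι j⁻¹)) (hE : ∀ Q, E₁ Q = Q.ord (ρ j⁻¹)) :
        ∑ P ∈ D₁.support, max (D₁ P) 0 = ∑ Q ∈ E₁.support, max (E₁ Q) 0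

(the zero divisor of `j⁻¹` has the same degree on the generic and on the special fibre).
Both sides are `ψ(N)`:

* `sum_max_ord_eq_finrank` (generic, any characteristic, `K` algebraically closed):
  `∑_{v ∈ supp D} max (D v) 0 = [F : K(x)]` for `D = div x`;
* `sum_max_ord_bar`, `sum_max_ord_fullC` : the value `ψ(N)` for every `x` with `q`-expansion
  `j⁻¹`, over `ℚ̄` and over any algebraically closed `k` with the primes of `N` invertible.
-/

set_option autoImplicit false
set_option synthInstance.maxHeartbeats 400000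
set_option linter.style.haveILetI false
set_option linter.unusedSectionVars false

noncomputable section

namespace Fermat.Agent.S37.H628

open ModularCurve IntermediateField AlgebraicCurve HahnSeries

section Generic

variable {K F : Type*} [Field K] [Field F] [Algebra K F] [IsAlgClosed K]

/-- **degree of the zero divisor**: for `D = div x`, `x` transcendental, `F / K(x)` finite,
`∑_{v ∈ supp D} max (D v) 0 = [F : K(x)]`.  Any characteristic. -/
theorem sum_max_ord_eq_finrank {x : F} (hx : Transcendental K x) [FiniteDimensional K⟮x⟯ F]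
    (D : Divisor K F) (hD : ∀ v, D v = v.ord x) :
    ∑ v ∈ D.support, max (D v) 0 = (Module.finrank K⟮x⟯ F : ℤ) := by
  classical
  have hfin := Fermat.Agent.Lib.RR.H383.finite_of_finite hx
  have hdeg : ∀ v : Place K F, v.deg = 1 := Fermat.Agent.Lib.RR.H383.deg_eq_one_of_finite hx
  have hS : ∀ v, v ∈ D.support.filter (fun v => 0 < D v) ↔ 0 < v.ord x := by
    intro v
    rw [Finset.mem_filter, Finsupp.mem_support_iff, hD v]
    constructor
    · exact fun h => h.2
    · exact fun h => ⟨h.ne', h⟩
  have h1 := Fermat.Agent.Lib.RR.H383.sum_ord_eq_finrank hfin hdeg hx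
    (D.support.filter (fun v => 0 < D v)) hS
  rw [← h1, Finset.sum_filter]
  refine Finset.sum_congr rfl fun v _ => ?_
  rw [hD v]
  by_cases h : 0 < v.ord x
  · rw [if_pos h, max_eq_left h.le]
  · rw [if_neg h, max_eq_right (not_lt.mp h)]

/-- `K(x⁻¹) = K(x)` -/
theorem adjoin_inv_eq_adjoin (f : F) : K⟮f⁻¹⟯ = K⟮f⟯ := by
  apply le_antisymm
  · rw [adjoin_simple_le_iff]
    exact inv_mem (mem_adjoin_simple_self K f)
  · rw [adjoin_simple_le_iff]
    have := inv_mem (mem_adjoin_simple_self K f⁻¹)
    rwa [inv_inv] at this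

/-- the same with the degree computed for `x⁻¹` -/
theorem sum_max_ord_eq_finrank_inv {x : F} (hx : Transcendental K x⁻¹)
    [h : FiniteDimensional K⟮x⁻¹⟯ F] (D : Divisor K F) (hD : ∀ v, D v = v.ord x) :
    ∑ v ∈ D.support, max (D v) 0 = (Module.finrank K⟮x⁻¹⟯ F : ℤ) := by
  have hx' : Transcendental K x := by
    intro halg
    exact hx halg.inv
  haveI : FiniteDimensional K⟮x⟯ F := by
    rw [← adjoin_inv_eq_adjoin (K := K) x]
    exact h
  rw [sum_max_ord_eq_finrank hx' D hD, adjoin_inv_eq_adjoin (K := K) x]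

end Generic

section Transcendental

variable (k : Type*) [Field k]

/-- an element of an intermediate field of `k((q))/k` with `q`-expansion `j` is
transcendental over `k` -/
theorem transcendental_of_coe_eq_jqModC (E : IntermediateField k (LaurentSeries k)) (x : E)
    (hx : (x : LaurentSeries k) = jqModC k) : Transcendental k x := by
  intro h
  have h2 : IsAlgebraic k (algebraMap E (LaurentSeries k) x) := h.algebraMap
  have h3 : algebraMap E (LaurentSeries k) x = jqModC k := hx
  rw [h3] at h2
  exact Fermat.Agent.S18.H739.transcendental_jqModC k h2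

end Transcendental

section Values

variable (N : ℕ) [NeZero N]

/-- over `ℚ̄`: the zero divisor of a function with `q`-expansion `j⁻¹` has degree `ψ(N)` -/
theorem sum_max_ord_bar (x : modularFunctionFieldBar N)
    (hx : (x : LaurentSeries (AlgebraicClosure ℚ)) = (jqModC (AlgebraicClosure ℚ))⁻¹)
    (D : Divisor (AlgebraicClosure ℚ) (modularFunctionFieldBar N)) (hD : ∀ P, D P = P.ord x) :
    ∑ P ∈ D.support, max (D P) 0 = (dedekindPsi N : ℤ) := by
  have hj : ((x⁻¹ : modularFunctionFieldBar N) : LaurentSeries (AlgebraicClosure ℚ)) =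
      jqModC (AlgebraicClosure ℚ) := by
    rw [IntermediateField.coe_inv, hx, inv_inv]
  have ht := transcendental_of_coe_eq_jqModC _ (modularFunctionFieldBar N) x⁻¹ hj
  haveI := finiteDimensional_adjoin_bar N x⁻¹ hj
  rw [sum_max_ord_eq_finrank_inv ht D hD, finrank_adjoin_bar N x⁻¹ hj]

/-- over an algebraically closed field `k` in which the primes of `N` are invertible: the zero
divisor of a function with `q`-expansion `j̄⁻¹` has degree `ψ(N)` -/
theorem sum_max_ord_fullC (k : Type*) [Field k] [IsAlgClosed k]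
    (hchar : ∀ p : ℕ, p.Prime → p ∣ N → (p : k) ≠ 0)
    (x : modularFunctionFieldFullC k N) (hx : (x : LaurentSeries k) = (jqModC k)⁻¹)
    (D : Divisor k (modularFunctionFieldFullC k N)) (hD : ∀ Q, D Q = Q.ord x) :
    ∑ Q ∈ D.support, max (D Q) 0 = (dedekindPsi N : ℤ) := by
  have hj : ((x⁻¹ : modularFunctionFieldFullC k N) : LaurentSeries k) = jqModC k := by
    rw [IntermediateField.coe_inv, hx, inv_inv]
  have ht := transcendental_of_coe_eq_jqModC _ (modularFunctionFieldFullC k N) x⁻¹ hj
  haveI := finiteDimensional_adjoin_fullC k N hchar x⁻¹ hj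
  rw [sum_max_ord_eq_finrank_inv ht D hD, finrank_adjoin_fullC k N hchar x⁻¹ hj]

end Values

section Field

open Fermat.Agent.S37.H518 Fermat.Agent.S37.H508

variable (N : ℕ) [NeZero N] {ℓ : ℕ} (hℓ : ℓ.Prime) (hℓN : ¬ ℓ ∣ N)
  (A : ValuationSubring (AlgebraicClosure ℚ)) (hA : A.LiesOverPrime ℓ)

include hℓ hℓN hA in
/-- **[DEG] field `FI` of `H518.TwoCharts` for the two modular charts**: the zero divisor of
`j⁻¹` has the same degree (`ψ(N)`) on both fibres.  Exact type of `Skel.FI` in
`origin/helper508:Fermat/Agent/S37/H508/RimSkel.lean`. -/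
theorem FI (D₁ : Divisor (AlgebraicClosure ℚ) (modularFunctionFieldBar N))
    (E₁ : Divisor (IsLocalRing.ResidueField A)
      (modularFunctionFieldFullC (IsLocalRing.ResidueField A) N))
    (hD : ∀ P, D₁ P = P.ord (iotaF A (IsLocalRing.residue A) N (jInvInt A N)))
    (hE : ∀ Q, E₁ Q = Q.ord (rhoF A (IsLocalRing.residue A) N (jInvInt A N))) :
    ∑ P ∈ D₁.support, max (D₁ P) 0 = ∑ Q ∈ E₁.support, max (E₁ Q) 0 := by
  haveI : IsAlgClosed (IsLocalRing.ResidueField A) :=
    Fermat.Agent.S18.H9.resAlgClosed (AlgebraicClosure ℚ) A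
  have hchar := natCast_ne_zero_residueField N hℓ hℓN A hA
  have h1 : ((iotaF A (IsLocalRing.residue A) N (jInvInt A N) : modularFunctionFieldBar N) :
      LaurentSeries (AlgebraicClosure ℚ)) = (jqModC (AlgebraicClosure ℚ))⁻¹ := by
    rw [coe_iotaF, coe_jInvInt, coeffMap_jInvS, jInvS_eq_inv]
  have h2 : ((rhoF A (IsLocalRing.residue A) N (jInvInt A N) :
      modularFunctionFieldFullC (IsLocalRing.ResidueField A) N) :
      LaurentSeries (IsLocalRing.ResidueField A)) = (jqModC (IsLocalRing.ResidueField A))⁻¹ := by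
    rw [coe_rhoF, coe_jInvInt, coeffMap_jInvS, jInvS_eq_inv]
  rw [sum_max_ord_bar N _ h1 D₁ hD, sum_max_ord_fullC N _ hchar _ h2 E₁ hE]

end Field

end Fermat.Agent.S37.H628
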